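import Mathlib

/-!
# P2, block 6c: the duality step

`DualMod R L` is the dual group `L →+ ℤ` with the transposed action of `R`; if the vectors of `L`
which are eigenvectors modulo `2 ^ n` are divisible by `2 ^ (n - i)` then `2 ^ i` kills the
quotient of the dual by the ideal `{x | 2 ^ n ∣ lam x}`.
-/

set_option autoImplicit false

namespace Fermat.Agent.P2.Six

/-- the dual `L →+ ℤ`, with the transposed action -/
def DualMod (R L : Type*) [CommRing R] [AddCommGroup L] [Module R L] : Type _ := L →+ ℤ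

namespace DualMod

variable {R L : Type*} [CommRing R] [AddCommGroup L] [Module R L]

instance instAddCommGroup : AddCommGroup (DualMod R L) := inferInstanceAs (AddCommGroup (L →+ ℤ))

instance instFunLike : FunLike (DualMod R L) L ℤ := inferInstanceAs (FunLike (L →+ ℤ) L ℤ)

instance instAddMonoidHomClass : AddMonoidHomClass (DualMod R L) L ℤ :=
  inferInstanceAs (AddMonoidHomClass (L →+ ℤ) L ℤ)

@[ext] theorem ext {p q : DualMod R L} (h : ∀ y, p y = q y) : p = q := DFunLike.ext _ _ h

@[simp] theorem add_apply' (p q : DualMod R L) (y : L) : (p + q) y = p y + q y := rfl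

@[simp] theorem zero_apply' (y : L) : (0 : DualMod R L) y = 0 := rfl

instance instSMul : SMul R (DualMod R L) :=
  ⟨fun x p => (show L →+ ℤ from p).comp (DistribSMul.toAddMonoidHom L x)⟩

@[simp] theorem smul_apply (x : R) (p : DualMod R L) (y : L) : (x • p) y = p (x • y) := rfl

instance instModule : Module R (DualMod R L) where
  one_smul p := by ext y; simp
  mul_smul x y p := by ext z; rw [smul_apply, smul_apply, smul_apply, mul_comm, mul_smul]
  smul_zero x := by ext y; simp
  smul_add x p q := by ext y; simp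
  add_smul x y p := by ext z; rw [smul_apply, add_smul, map_add, add_apply', smul_apply, smul_apply]
  zero_smul p := by ext z; rw [smul_apply, zero_smul, map_zero, zero_apply']

theorem zsmul_apply (m : ℤ) (p : DualMod R L) (y : L) : (m • p) y = m * p y := by
  change ((m • (show L →+ ℤ from p)) : L →+ ℤ) y = _
  rw [AddMonoidHom.smul_apply, smul_eq_mul]
  rfl

/-- the dual as the `ℤ`-module dual -/
def equivDual : DualMod R L ≃ₗ[ℤ] Module.Dual ℤ L :=
  (show (L →+ ℤ) ≃+ (L →ₗ[ℤ] ℤ) from
    { toFun := fun p => p.toIntLinearMap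
      invFun := fun p => p.toAddMonoidHom
      left_inv := fun _ => rfl
      right_inv := fun _ => rfl
      map_add' := fun _ _ => rfl }).toIntLinearEquiv

instance instFinite [Module.Finite ℤ L] [Module.Free ℤ L] : Module.Finite ℤ (DualMod R L) :=
  Module.Finite.equiv (equivDual (R := R) (L := L)).symm

instance instFree [Module.Finite ℤ L] [Module.Free ℤ L] : Module.Free ℤ (DualMod R L) :=
  Module.Free.of_equiv (equivDual (R := R) (L := L)).symm

/-- the functional attached to a basis vector -/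
noncomputable def coordD {ι : Type*} (b : Module.Basis ι ℤ L) (k : ι) : DualMod R L :=
  (show L →+ ℤ from (b.coord k).toAddMonoidHom)

theorem coordD_apply {ι : Type*} (b : Module.Basis ι ℤ L) (k : ι) (y : L) :
    (coordD b k : DualMod R L) y = b.repr y k := rfl

theorem faithful [Module.Finite ℤ L] [Module.Free ℤ L] (x : R)
    (h : ∀ p : DualMod R L, x • p = 0) : ∀ y : L, x • y = 0 := by
  intro y
  let b := Module.Free.chooseBasis ℤ L
  refine b.repr.injective (Finsupp.ext fun k => ?_)
  have := congrArg (fun p : DualMod R L => p y) (h (coordD b k))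
  simp only [smul_apply, zero_apply', coordD_apply] at this
  rw [this, map_zero, Finsupp.zero_apply]

theorem dual_step [Module.Finite ℤ L] [Module.Free ℤ L] (lam : R →+* ℤ) (n i : ℕ)
    (h : ∀ w : L, (∀ x : R, ∃ y : L, x • w - lam x • w = (2 : ℤ) ^ n • y) →
      ∃ y : L, (2 : ℤ) ^ i • w = (2 : ℤ) ^ n • y) (p : DualMod R L) :
    (2 : ℤ) ^ i • p ∈
      (Ideal.comap lam (Ideal.span {(2 : ℤ) ^ n})) • (⊤ : Submodule R (DualMod R L)) := by
  classical
  set I : Ideal R := Ideal.comap lam (Ideal.span {(2 : ℤ) ^ n}) with hI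
  set N : Submodule R (DualMod R L) := I • ⊤ with hN
  by_contra hcon
  have hq : (Submodule.Quotient.mk ((2 : ℤ) ^ i • p) : DualMod R L ⧸ N) ≠ 0 := by
    rwa [Ne, Submodule.Quotient.mk_eq_zero]
  obtain ⟨c, hc⟩ := CharacterModule.exists_character_apply_ne_zero_of_ne_zero hq
  -- the pulled back character
  let c' : DualMod R L →+ AddCircle (1 : ℚ) :=
    (show (DualMod R L ⧸ N) →+ AddCircle (1 : ℚ) from c).comp (N.mkQ.toAddMonoidHom)
  have hc'N : ∀ r ∈ N, c' r = 0 := by
    intro r hr
    have : N.mkQ r = 0 := by rwa [Submodule.mkQ_apply, Submodule.Quotient.mk_eq_zero]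
    change (show (DualMod R L ⧸ N) →+ AddCircle (1 : ℚ) from c) (N.mkQ r) = 0
    rw [this, map_zero]
  have hc'p : c' ((2 : ℤ) ^ i • p) ≠ 0 := hc
  have h2n : ∀ r : DualMod R L, (2 : ℤ) ^ n • r ∈ N := by
    intro r
    have h1 : (((2 : ℤ) ^ n : ℤ) : R) ∈ I := by
      rw [hI, Ideal.mem_comap, map_intCast, Int.cast_id]
      exact Ideal.mem_span_singleton_self _
    have h2 : (2 : ℤ) ^ n • r = (((2 : ℤ) ^ n : ℤ) : R) • r := (Int.cast_smul_eq_zsmul R _ r).symm
    rw [h2]
    exact Submodule.smul_mem_smul h1 Submodule.mem_top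
  let b := Module.Free.chooseBasis ℤ L
  have ha : ∀ k, ∃ a : ℤ, c' (coordD b k) = (((a : ℚ) / 2 ^ n : ℚ) : AddCircle (1 : ℚ)) := by
    intro k
    obtain ⟨r, hr⟩ := QuotientAddGroup.mk_surjective (c' (coordD b k))
    have h1 : (2 : ℤ) ^ n • c' (coordD b k) = 0 := by
      rw [← map_zsmul]; exact hc'N _ (h2n _)
    rw [← hr] at h1
    have h2 : ((((2 : ℤ) ^ n) • r : ℚ) : AddCircle (1 : ℚ)) = 0 := h1
    rw [AddCircle.coe_eq_zero_iff] at h2
    obtain ⟨m, hm⟩ := h2
    refine ⟨m, ?_⟩
    rw [← hr]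
    have h3 : r = (m : ℚ) / 2 ^ n := by
      rw [eq_div_iff (by positivity)]
      have : (m : ℚ) = ((2 : ℤ) ^ n : ℤ) • r := by rw [← hm]; simp
      rw [this, zsmul_eq_mul]
      push_cast
      ring
    rw [h3]
  choose a ha using ha
  set w : L := ∑ k, a k • b k with hw
  have key : ∀ r : DualMod R L, c' r = (((r w : ℚ) / 2 ^ n : ℚ) : AddCircle (1 : ℚ)) := by
    intro r
    have hr : r = ∑ k, r (b k) • (coordD b k : DualMod R L) := by
      ext y
      have h1 : ∀ (s : Finset _) , (∑ k ∈ s, r (b k) • (coordD b k : DualMod R L)) y =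
          ∑ k ∈ s, r (b k) * b.repr y k := by
        intro s
        induction s using Finset.induction_on with
        | empty => simp
        | insert k s hk ih =>
          rw [Finset.sum_insert hk, Finset.sum_insert hk, add_apply', ih, zsmul_apply,
            coordD_apply]
      rw [h1]
      conv_lhs => rw [← b.sum_repr y, map_sum]
      refine Finset.sum_congr rfl fun k _ => ?_
      rw [map_zsmul, smul_eq_mul, mul_comm]
    have hrw : (r w : ℚ) / 2 ^ n = ∑ k, (r (b k) : ℚ) * ((a k : ℚ) / 2 ^ n) := by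
      have h1 : r w = ∑ k, a k * r (b k) := by
        rw [hw, map_sum]
        exact Finset.sum_congr rfl fun k _ => by rw [map_zsmul, smul_eq_mul]
      rw [h1]
      push_cast
      rw [Finset.sum_div]
      exact Finset.sum_congr rfl fun k _ => by ring
    have h2 : c' r = ∑ k, r (b k) • c' (coordD b k) := by
      conv_lhs => rw [hr]
      rw [map_sum]
      exact Finset.sum_congr rfl fun k _ => map_zsmul _ _ _
    rw [h2, hrw]
    have h3 : (((∑ k, (r (b k) : ℚ) * ((a k : ℚ) / 2 ^ n) : ℚ)) : AddCircle (1 : ℚ)) =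
        ∑ k, (((r (b k) : ℚ) * ((a k : ℚ) / 2 ^ n) : ℚ) : AddCircle (1 : ℚ)) :=
      map_sum (QuotientAddGroup.mk' (AddSubgroup.zmultiples (1 : ℚ))) _ _
    rw [h3]
    refine Finset.sum_congr rfl fun k _ => ?_
    rw [ha k, ← AddCircle.coe_zsmul, zsmul_eq_mul]
  have hdvd : ∀ r : DualMod R L, c' r = 0 → (2 : ℤ) ^ n ∣ r w := by
    intro r hr
    rw [key, AddCircle.coe_eq_zero_iff] at hr
    obtain ⟨m, hm⟩ := hr
    refine ⟨m, ?_⟩
    rw [eq_div_iff (by positivity), zsmul_eq_mul, mul_one] at hm
    have : ((r w : ℤ) : ℚ) = (((2 : ℤ) ^ n * m : ℤ) : ℚ) := by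
      rw [← hm]; push_cast; ring
    exact_mod_cast this
  obtain ⟨y, hy⟩ := h w (fun x => by
    have hx : x - ((lam x : ℤ) : R) ∈ I := by
      rw [hI, Ideal.mem_comap, map_sub, map_intCast, Int.cast_id, sub_self]
      exact Submodule.zero_mem _
    have h1 : ∀ k, (2 : ℤ) ^ n ∣ b.repr (x • w - lam x • w) k := by
      intro k
      have h2 := hdvd _ (hc'N _ (Submodule.smul_mem_smul hx
        (Submodule.mem_top (x := (coordD b k : DualMod R L)))))
      rwa [smul_apply, coordD_apply, sub_smul, Int.cast_smul_eq_zsmul] at h2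
    choose z hz using h1
    refine ⟨∑ k, z k • b k, b.repr.injective (Finsupp.ext fun k => ?_)⟩
    rw [hz k, map_smul, Finsupp.smul_apply, smul_eq_mul, Module.Basis.repr_sum_self])
  refine hc'p ?_
  rw [key, AddCircle.coe_eq_zero_iff]
  refine ⟨p y, ?_⟩
  have h1 : (((2 : ℤ) ^ i • p : DualMod R L) w) = (2 : ℤ) ^ n * p y := by
    rw [zsmul_apply, ← smul_eq_mul ((2 : ℤ) ^ i), ← map_zsmul, hy, map_zsmul, smul_eq_mul]
  rw [h1, zsmul_eq_mul, mul_one, eq_div_iff (by positivity)]
  push_cast
  ring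

end DualMod

end Fermat.Agent.P2.Six
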