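import Fermat.Agent.P2.Six.AlgD
import Fermat.Agent.P2.Six.AlgDual

/-!
# P2, block 6c: the abstract existence theorem
-/

set_option autoImplicit false

noncomputable section

namespace Fermat.Agent.P2.Six

/-- the systems residually equal to `lam` -/
def Sys (R : Type*) [CommRing R] (I : Ideal R) (lam : R →+* ℤ) : Type _ :=
  {f : R ⧸ I →+* PadicAlgCl 2 // ∀ x : R, ‖f (Ideal.Quotient.mk I x)‖ < 1 ↔ Even (lam x)}

theorem norm_two_lt : ‖(2 : PadicAlgCl 2)‖ < 1 := by
  have h1 : ((2 : ℚ_[2]) : PadicAlgCl 2) = 2 := map_ofNat (algebraMap ℚ_[2] (PadicAlgCl 2)) 2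
  have h2 := PadicAlgCl.norm_extends (p := 2) (2 : ℚ_[2])
  have h3 : ‖(2 : ℚ_[2])‖ = 2⁻¹ := by
    have := Padic.norm_p (p := 2)
    simpa using this
  rw [← h1, h2, h3]
  norm_num

/-- **Theorem B.**  If few systems are residually equal to `lam` and `lam` is very congruent to
zero on `I`, there is an eigenvector modulo `2 ^ n` which is not too divisible. -/
theorem exists_vec {R L : Type*} [CommRing R] [AddCommGroup L] [Module R L]
    [Module.Finite ℤ L] [Module.Free ℤ L] (I : Ideal R)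
    (hI : ∀ x : R, (∀ y : L, x • y = 0) → x ∈ I) [IsReduced (R ⧸ I)]
    (htf : ∀ (k : ℤ) (x : R), k ≠ 0 → k • x ∈ I → x ∈ I) (lam : R →+* ℤ) (n h i : ℕ)
    (hn : ∀ x ∈ I, (2 : ℤ) ^ n ∣ lam x) (hcard : Nat.card (Sys R I lam) ≤ h)
    (hni : i * h < n) :
    ∃ w : L, (∀ x : R, ∃ y : L, x • w - lam x • w = (2 : ℤ) ^ n • y) ∧
      ¬ ∃ y : L, (2 : ℤ) ^ i • w = (2 : ℤ) ^ n • y := by
  by_contra hcon
  push Not at hcon
  have h1 := DualMod.dual_step lam n i hcon
  have h2 := card_bound (K := PadicAlgCl 2) norm_two_lt I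
    (fun x hx => hI x (DualMod.faithful x hx)) htf lam n i hn h1
  have h3 : i * Nat.card (Sys R I lam) ≤ i * h := Nat.mul_le_mul_left _ hcard
  have h4 : n ≤ i * Nat.card (Sys R I lam) := h2
  omega

/-- the set of systems is finite -/
theorem finite_Sys {R L : Type*} [CommRing R] [AddCommGroup L] [Module R L]
    [Module.Finite ℤ L] [Module.Free ℤ L] (I : Ideal R)
    (hI : ∀ x : R, (∀ y : L, x • y = 0) → x ∈ I) (lam : R →+* ℤ) : Finite (Sys R I lam) := by
  have h1 : Module.Finite ℤ (R ⧸ I) := finite_quotient I hI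
  have h2 : Finite (R ⧸ I →+* PadicAlgCl 2) := finite_hom
  exact Subtype.finite

end Fermat.Agent.P2.Six
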