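import Fermat.Agent.P2.Six.Geo
import Fermat.Agent.P2.Six.Alg
import Fermat.Agent.P2.Mazur2k.Iterate
import Fermat.Agent.P2.Assembly

/-!
# P2, block 6c: the element of large order of `J₀(M)[2^n]`
-/

set_option autoImplicit false

noncomputable section

open ModularCurve CongruenceSubgroup

namespace Fermat.Agent.P2.Six

/-- the eigensystem of `a` on the anemic algebra -/
def lamR (M : ℕ) (a : ℕ → ℤ) : anem M →+* ℤ := (lam a).comp (anem M).val.toRingHom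

theorem lamR_apply (M : ℕ) (a : ℕ → ℤ) (x : anem M) : lamR M a x = lam a x := rfl

theorem lam_gen (a : ℕ → ℤ) (ℓ : Nat.Primes) : lam a (heckeGen ℓ) = a ℓ :=
  MvPolynomial.aeval_X _ ℓ

theorem ann_le (M : ℕ) [NeZero M] (Q : Finset ℕ) (ε : ℕ → ℤ) (x : anem M)
    (hx : ∀ φ : HLat M, x • φ = 0) : x ∈ annForms M Q ε := by
  rw [Sys.mem_annForms]
  intro f _
  have h1 := anemEval_eq_zero_of_smul hx
  have h2 := coe_anemEval M x
  rw [h1] at h2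
  rw [← h2]
  rfl

theorem torsionFree (M : ℕ) [NeZero M] (Q : Finset ℕ) (ε : ℕ → ℤ) (k : ℤ) (x : anem M)
    (hk : k ≠ 0) (h : k • x ∈ annForms M Q ε) : x ∈ annForms M Q ε := by
  rw [Sys.mem_annForms] at h ⊢
  intro f hf
  have h1 := h f hf
  have h2 : ((k • x : anem M) : HeckeAlg) = (k : HeckeAlg) * x := by
    rw [SetLike.val_smul, zsmul_eq_mul]
  rw [h2, Sys.act_mul, Sys.act_intCast] at h1
  exact (smul_eq_zero.mp h1).resolve_left (Int.cast_ne_zero.mpr hk)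

/-- **The element**, at level `M`. -/
theorem exists_elt (M : ℕ) [NeZero M] (Q : Finset ℕ) (ε : ℕ → ℤ) (a : ℕ → ℤ) (n h i : ℕ)
    (hker : ∀ x ∈ anem M, Kills M Q ε x → (2 : ℤ) ^ n ∣ lam a x)
    (hcard : Nat.card (Systems M Q ε a) ≤ h) (hn : i * h < n) :
    ∃ x : JZero M, 2 ^ n • x = 0 ∧
      (∀ ℓ : Nat.Primes, ¬ (ℓ : ℕ) ∣ M → heckeOperatorBar M ℓ x = a ℓ • x) ∧ 2 ^ i • x ≠ 0 := by
  have hred : IsReduced (anem M ⧸ annForms M Q ε) := Sys.isReduced_TT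
  obtain ⟨w, hw1, hw2⟩ := exists_vec (R := anem M) (L := HLat M) (annForms M Q ε)
    (ann_le M Q ε) (torsionFree M Q ε) (lamR M a) n h i (fun x hx => hker x x.2 hx) hcard hn
  obtain ⟨Φ, hΦ1, hΦ2⟩ := exists_toJ M (m := 2 ^ n) (by positivity)
  have hcast : (((2 ^ n : ℕ) : ℕ) : ℤ) = (2 : ℤ) ^ n := by push_cast; rfl
  refine ⟨Φ w, ?_, fun ℓ hℓ => ?_, fun h0 => hw2 ?_⟩
  · rw [← map_nsmul, hΦ1]
    exact ⟨w, (natCast_zsmul w (2 ^ n)).symm⟩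
  · obtain ⟨y, hy⟩ := hw1 ⟨heckeGen ℓ, gen_mem hℓ⟩
    have h1 : lamR M a ⟨heckeGen ℓ, gen_mem hℓ⟩ = a ℓ := lam_gen a ℓ
    rw [h1, ← hcast] at hy
    have h2 : Φ ((⟨heckeGen ℓ, gen_mem hℓ⟩ : anem M) • w - a ℓ • w) = 0 :=
      (hΦ1 _).mpr ⟨y, hy⟩
    rw [map_sub, map_zsmul, hΦ2 ℓ hℓ, sub_eq_zero] at h2
    exact h2
  · rw [← map_nsmul, hΦ1] at h0
    obtain ⟨y, hy⟩ := h0
    refine ⟨y, ?_⟩
    rw [← hcast, ← hy, ← natCast_zsmul]
    norm_num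

/-- **Block 6c.** -/
theorem block6cOut : Mazur2k.Block6cOut := by
  intro S a D hS _ h i
  refine ⟨i * h + 1, fun n hn Q _ hQ ε _ hker _ hcard => ?_⟩
  obtain ⟨x, hx1, hx2, hx3⟩ := exists_elt (lev S Q) Q ε a n h i hker hcard (by omega)
  refine ⟨inferInstance, x, hx1, fun ℓ hℓ => hx2 ℓ fun hd => hℓ ?_, hx3⟩
  rw [Finset.mem_union]
  rcases (Nat.Prime.dvd_mul ℓ.2).mp hd with h1 | h1
  · exact Or.inl ((prime_dvd_prod_iff hS ℓ.2).mp h1)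
  · exact Or.inr ((prime_dvd_prod_iff (fun q hq => (hQ q hq).1) ℓ.2).mp h1)

/-- **Block 6** from `GeoInput`. -/
theorem block6Out (hgeo : ∀ (M q : ℕ) [NeZero M] [NeZero q], Mazur2k.GeoInput M q) : Block6Out :=
  Mazur2k.block6Out_of hgeo block6cOut

end Fermat.Agent.P2.Six
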