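import Mathlib
import Fermat.Agent.RT.Reduced

/-!
# P2, block 6c: algebraic preliminaries

* `exists_eigenfunctional`: eigenfunctionals on finite modules;
* `exists_char_ne_zero`: characters of `R` separate the points of `K ⊗ R`, `R` reduced and finite
  over `ℤ`;
* `exists_minor`: integral coordinates with respect to a maximal minor.
-/

set_option autoImplicit false

open TensorProduct

noncomputable section

namespace Fermat.Agent.P2.Six

/-! ### Eigenfunctionals -/

theorem exists_eigenfunctional {R P K : Type*} [CommRing R] [AddCommGroup P] [Module R P]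
    [Module.Finite R P] [Field K] (f : R →+* K)
    (hf : ∀ x : R, (∀ p : P, x • p = 0) → f x = 0) :
    ∃ ℓ : P →+ K, (∃ p, ℓ p ≠ 0) ∧ ∀ (x : R) (p : P), ℓ (x • p) = f x * ℓ p := by
  have hprime : (RingHom.ker f).IsPrime := RingHom.ker_isPrime f
  set 𝔭 : PrimeSpectrum R := ⟨RingHom.ker f, hprime⟩ with h𝔭
  have hsupp : 𝔭 ∈ Module.support R P := by
    rw [Module.mem_support_iff_of_finite]
    intro x hx
    rw [Module.mem_annihilator] at hx
    exact hf x hx
  rw [Module.mem_support_iff_nontrivial_residueField_tensorProduct] at hsupp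
  set κ := 𝔭.asIdeal.ResidueField with hκ
  obtain ⟨z, hz⟩ := exists_ne (0 : κ ⊗[R] P)
  obtain ⟨φ, hφ⟩ : ∃ φ : Module.Dual κ (κ ⊗[R] P), φ z ≠ 0 := by
    by_contra hcon
    push Not at hcon
    exact hz ((Module.forall_dual_apply_eq_zero_iff κ z).mp hcon)
  -- embedding `κ → K`
  have hlift : ∀ y : R, y ∈ 𝔭.asIdeal → f y = 0 := fun y hy => hy
  let g : R ⧸ 𝔭.asIdeal →+* K := Ideal.Quotient.lift _ f hlift
  have hg : Function.Injective g := RingHom.lift_injective_of_ker_le_ideal _ _ le_rfl
  let ι : κ →+* K := IsFractionRing.lift (A := R ⧸ 𝔭.asIdeal) (K := κ) hg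
  have hι : ∀ x : R, ι (algebraMap R κ x) = f x := by
    intro x
    have h1 : algebraMap R κ x = algebraMap (R ⧸ 𝔭.asIdeal) κ (Ideal.Quotient.mk _ x) := rfl
    rw [h1]
    exact IsFractionRing.lift_algebraMap hg _
  let ℓ : P →+ K :=
    ι.toAddMonoidHom.comp (φ.toAddMonoidHom.comp (TensorProduct.mk R κ P 1).toAddMonoidHom)
  have hℓ : ∀ p, ℓ p = ι (φ ((1 : κ) ⊗ₜ[R] p)) := fun p => rfl
  refine ⟨ℓ, ?_, ?_⟩
  · by_contra hcon
    push Not at hcon
    apply hφ
    have h0 : ∀ p, φ ((1 : κ) ⊗ₜ[R] p) = 0 := by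
      intro p
      have h1 := hcon p
      rw [hℓ] at h1
      exact (map_eq_zero ι).mp h1
    induction z using TensorProduct.induction_on with
    | zero => exact absurd rfl hz
    | tmul a p =>
      have : a ⊗ₜ[R] p = a • ((1 : κ) ⊗ₜ[R] p) := by
        rw [TensorProduct.smul_tmul', smul_eq_mul, mul_one]
      rw [this, map_smul, h0 p, smul_zero]
    | add a b ha hb =>
      rw [map_add]
      by_cases ha0 : a = 0
      · by_cases hb0 : b = 0
        · rw [ha0, hb0, map_zero, add_zero]
        · by_cases hb' : φ b = 0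
          · rw [ha0, map_zero, hb', add_zero]
          · exact absurd (hb hb0 hb') hb'
      · have ha' : φ a = 0 := by
          by_contra h
          exact h (ha ha0 h)
        by_cases hb0 : b = 0
        · rw [hb0, map_zero, ha', add_zero]
        · have hb' : φ b = 0 := by
            by_contra h
            exact h (hb hb0 h)
          rw [ha', hb', add_zero]
  · intro x p
    rw [hℓ, hℓ, TensorProduct.tmul_smul]
    have : x • ((1 : κ) ⊗ₜ[R] p) = (algebraMap R κ x) • ((1 : κ) ⊗ₜ[R] p) :=
      (algebraMap_smul κ x _).symm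
    rw [this, map_smul, smul_eq_mul, map_mul, hι]

/-! ### Characters separate points -/

/-- the `K`-linear extension of a ring homomorphism `g : B → K` -/
def extK {B K : Type*} [CommRing B] [Field K] (g : B →+* K) : K ⊗[ℤ] B →ₐ[K] K :=
  Algebra.TensorProduct.lift (AlgHom.id K K) g.toIntAlgHom (fun _ _ => Commute.all _ _)

theorem extK_tmul {B K : Type*} [CommRing B] [Field K] (g : B →+* K) (a : K) (b : B) :
    extK g (a ⊗ₜ[ℤ] b) = a * g b := rfl

theorem eq_zero_of_extK {B K : Type*} [CommRing B] [IsReduced B] [Module.Finite ℤ B]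
    [Field K] [IsAlgClosed K] [CharZero K] (z : K ⊗[ℤ] B) (hz : ∀ g : B →+* K, extK g z = 0) :
    z = 0 := by
  have hred : IsReduced (K ⊗[ℤ] B) := RT.Reduced.isReduced_field_tensor B K
  have hart : IsArtinianRing (K ⊗[ℤ] B) := IsArtinianRing.of_finite K _
  have h1 : z ∈ nilradical (K ⊗[ℤ] B) := by
    rw [IsArtinianRing.nilradical_eq_iInf, Submodule.mem_iInf]
    intro 𝔪
    let _ : Field ((K ⊗[ℤ] B) ⧸ 𝔪.asIdeal) := Ideal.Quotient.field _
    have hint : Algebra.IsIntegral K ((K ⊗[ℤ] B) ⧸ 𝔪.asIdeal) := inferInstance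
    have hbij := IsAlgClosed.algebraMap_bijective_of_isIntegral (k := K)
      (K := (K ⊗[ℤ] B) ⧸ 𝔪.asIdeal)
    let e : K ≃ₐ[K] ((K ⊗[ℤ] B) ⧸ 𝔪.asIdeal) := AlgEquiv.ofBijective (Algebra.ofId K _) hbij
    let χ : K ⊗[ℤ] B →ₐ[K] K := e.symm.toAlgHom.comp (Ideal.Quotient.mkₐ K 𝔪.asIdeal)
    let g : B →+* K := χ.toRingHom.comp
      (Algebra.TensorProduct.includeRight : B →ₐ[ℤ] K ⊗[ℤ] B).toRingHom
    have hχ : χ = extK g := by
      apply Algebra.TensorProduct.ext
      · ext
      · ext b
        change χ (1 ⊗ₜ b) = 1 * g b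
        rw [one_mul]
        rfl
    have h2 : χ z = 0 := by rw [hχ]; exact hz g
    have h3 : e.symm (Ideal.Quotient.mk 𝔪.asIdeal z) = 0 := h2
    rw [map_eq_zero_iff _ e.symm.injective] at h3
    exact Ideal.Quotient.eq_zero_iff_mem.mp h3
  rw [nilradical_eq_zero] at h1
  exact h1

theorem finite_hom {B K : Type*} [CommRing B] [Module.Finite ℤ B] [Field K] :
    Finite (B →+* K) := by
  obtain ⟨n, s, hs⟩ := Module.Finite.exists_fin (R := ℤ) (M := B)
  have h1 : LinearIndependent K (fun g : B →+* K => (g : B → K)) := by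
    have := linearIndependent_monoidHom B K
    exact this.comp (fun g : B →+* K => (g : B →* K)) (fun a b hab => by
      ext x
      exact DFunLike.congr_fun hab x)
  -- restrict to the generators
  let res : (B → K) →ₗ[K] (Fin n → K) := LinearMap.funLeft K K s
  have h2 : LinearIndependent K (fun g : B →+* K => (fun i => g (s i))) := by
    rw [linearIndependent_iff'] at h1 ⊢
    intro t c hc g hg
    refine h1 t c ?_ g hg
    funext x
    have hx : x ∈ Submodule.span ℤ (Set.range s) := by rw [hs]; exact Submodule.mem_top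
    rw [Finset.sum_apply]
    simp only [Pi.smul_apply, Pi.zero_apply, smul_eq_mul]
    induction hx using Submodule.span_induction with
    | mem x hx =>
      obtain ⟨i, rfl⟩ := hx
      have := congrFun hc i
      rw [Finset.sum_apply] at this
      simpa using this
    | zero => simp
    | add x y _ _ hx hy =>
      simp only [map_add, mul_add, Finset.sum_add_distrib, hx, hy, add_zero]
    | smul m x _ hx =>
      simp only [map_zsmul, mul_smul_comm, ← Finset.smul_sum, hx, smul_zero]
  exact h2.finite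

end Fermat.Agent.P2.Six
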