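import Fermat.Agent.P2.Six.AlgA

/-!
# P2, block 6c: maximal minors over ultrametric fields
-/

set_option autoImplicit false

open Matrix

noncomputable section

namespace Fermat.Agent.P2.Six

/-- A matrix with independent rows has an invertible maximal minor. -/
theorem exists_det_ne_zero {K σ ι : Type*} [Field K] [Fintype σ] [DecidableEq σ] [Fintype ι]
    (L : Matrix σ ι K) (hL : LinearIndependent K (fun f => L f)) :
    ∃ τ : σ → ι, (L.submatrix id τ).det ≠ 0 := by
  classical
  have h1 : L.rank = Fintype.card σ := LinearIndependent.rank_matrix hL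
  rw [Matrix.rank_eq_finrank_span_cols] at h1
  have h2 : Submodule.span K (Set.range L.col) = ⊤ := by
    apply Submodule.eq_top_of_finrank_eq
    rw [h1, Module.finrank_pi]
  obtain ⟨b, hb1, hb2, hb3⟩ := exists_linearIndependent K (Set.range L.col)
  rw [h2] at hb2
  let B : Module.Basis b K (σ → K) := Module.Basis.mk hb3 (by
    rw [Subtype.range_coe, hb2])
  have hbfin : Finite b := Module.Finite.finite_basis B
  have : Fintype b := Fintype.ofFinite b
  have hcard : Fintype.card σ = Fintype.card b := by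
    rw [← Module.finrank_pi K (ι := σ), Module.finrank_eq_card_basis B]
  let e : σ ≃ b := Fintype.equivOfCardEq hcard
  have hpre : ∀ x : b, ∃ k : ι, L.col k = x := fun x => hb1 x.2
  choose pre hpre using hpre
  refine ⟨fun g => pre (e g), ?_⟩
  have hli : LinearIndependent K (L.submatrix id (fun g => pre (e g))).col := by
    have h3 : (L.submatrix id (fun g => pre (e g))).col = (fun x : b => (x : σ → K)) ∘ e := by
      funext g
      change L.col (pre (e g)) = _
      rw [hpre]
      rfl
    rw [h3]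
    exact hb3.comp _ e.injective
  rw [Matrix.linearIndependent_cols_iff_isUnit, Matrix.isUnit_iff_isUnit_det] at hli
  exact hli.ne_zero

/-- **Maximal minor.** -/
theorem exists_minor {K σ ι : Type*} [NormedField K] [Fintype σ] [DecidableEq σ]
    [Fintype ι] (L : Matrix σ ι K) (hL : LinearIndependent K (fun f => L f)) :
    ∃ τ : σ → ι, (L.submatrix id τ).det ≠ 0 ∧ ∃ c : ι → σ → K, (∀ k g, ‖c k g‖ ≤ 1) ∧
      ∀ f k, L f k = ∑ g, c k g * L f (τ g) := by
  classical
  obtain ⟨τ₀, hτ₀⟩ := exists_det_ne_zero L hL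
  have : Nonempty (σ → ι) := ⟨τ₀⟩
  obtain ⟨τ, hτ⟩ := Finite.exists_max (fun τ : σ → ι => ‖(L.submatrix id τ).det‖)
  have hdet : (L.submatrix id τ).det ≠ 0 := by
    intro h0
    have := hτ τ₀
    rw [h0, norm_zero] at this
    exact hτ₀ (norm_le_zero_iff.mp this)
  set A := L.submatrix id τ with hA
  refine ⟨τ, hdet, fun k g => (A.cramer (L.col k)) g / A.det, fun k g => ?_, fun f k => ?_⟩
  · rw [norm_div, div_le_one (norm_pos_iff.mpr hdet), Matrix.cramer_apply]
    have h1 : A.updateCol g (L.col k) = L.submatrix id (Function.update τ g k) := by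
      ext f j
      by_cases hj : j = g
      · subst hj
        simp [Matrix.updateCol_self]
      · simp [Matrix.updateCol_ne hj, hA, Function.update_of_ne hj]
    rw [h1]
    exact hτ _
  · have h1 := congrFun (Matrix.mulVec_cramer A (L.col k)) f
    rw [Matrix.mulVec, dotProduct, Pi.smul_apply, smul_eq_mul] at h1
    have h2 : L.col k f = L f k := rfl
    rw [h2] at h1
    have h3 : L f k = (∑ g, A f g * (A.cramer (L.col k)) g) / A.det := by
      rw [h1, mul_div_cancel_left₀ _ hdet]
    rw [h3, Finset.sum_div]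
    refine Finset.sum_congr rfl fun g _ => ?_
    have h4 : L f (τ g) = A f g := rfl
    rw [h4]
    ring

/-- Integral elements have norm at most one. -/
theorem norm_le_one_of_isIntegral {K : Type*} [NormedField K] [IsUltrametricDist K] {x : K}
    (hx : IsIntegral ℤ x) : ‖x‖ ≤ 1 := by
  obtain ⟨p, hp, hpx⟩ := hx
  by_contra hcon
  push Not at hcon
  have hx0 : 0 < ‖x‖ := lt_trans one_pos hcon
  rcases Nat.eq_zero_or_pos p.natDegree with hn | hn
  · have : p = 1 := Polynomial.eq_one_of_monic_natDegree_zero hp hn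
    rw [this] at hpx
    simp at hpx
  -- `x^n = - Σ_{i<n} a_i x^i`
  have h1 : x ^ p.natDegree = -∑ i ∈ Finset.range p.natDegree, (p.coeff i : K) * x ^ i := by
    have h2 : Polynomial.eval₂ (algebraMap ℤ K) x p =
        ∑ i ∈ Finset.range (p.natDegree + 1), (algebraMap ℤ K) (p.coeff i) * x ^ i :=
      Polynomial.eval₂_eq_sum_range _ _
    rw [hpx, Finset.sum_range_succ, hp.coeff_natDegree, map_one, one_mul] at h2
    rw [eq_neg_iff_add_eq_zero, add_comm]
    simpa using h2.symm
  have h3 : ‖∑ i ∈ Finset.range p.natDegree, (p.coeff i : K) * x ^ i‖ ≤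
      ‖x‖ ^ (p.natDegree - 1) := by
    apply IsUltrametricDist.norm_sum_le_of_forall_le_of_nonneg (by positivity)
    intro i hi
    rw [norm_mul, norm_pow]
    have h4 : ‖(p.coeff i : K)‖ ≤ 1 := IsUltrametricDist.norm_intCast_le_one K _
    have h5 : ‖x‖ ^ i ≤ ‖x‖ ^ (p.natDegree - 1) :=
      pow_le_pow_right₀ hcon.le (by rw [Finset.mem_range] at hi; omega)
    calc ‖(p.coeff i : K)‖ * ‖x‖ ^ i ≤ 1 * ‖x‖ ^ (p.natDegree - 1) :=
          mul_le_mul h4 h5 (by positivity) one_pos.le
      _ = _ := one_mul _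
  have h6 : ‖x‖ ^ p.natDegree ≤ ‖x‖ ^ (p.natDegree - 1) := by
    rw [← norm_pow, h1, norm_neg]
    exact h3
  have h7 : ‖x‖ ^ (p.natDegree - 1) < ‖x‖ ^ p.natDegree :=
    pow_lt_pow_right₀ hcon (by omega)
  exact absurd h6 (not_le.mpr h7)

end Fermat.Agent.P2.Six
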