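import Fermat.Agent.P2.Six.AlgB

/-!
# P2, block 6c: the determinant trick, preparations
-/

set_option autoImplicit false

open Matrix TensorProduct

noncomputable section

namespace Fermat.Agent.P2.Six

section Integers

variable (K : Type*) [NormedField K] [IsUltrametricDist K]

/-- the closed unit ball of an ultrametric field -/
def Oc : Subring K where
  carrier := {x | ‖x‖ ≤ 1}
  mul_mem' {a b} ha hb := by
    rw [Set.mem_ofPred_eq] at *
    rw [norm_mul]
    exact mul_le_one₀ ha (norm_nonneg _) hb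
  one_mem' := by simp
  add_mem' {a b} ha hb := by
    rw [Set.mem_ofPred_eq] at *
    exact (IsUltrametricDist.norm_add_le_max a b).trans (max_le ha hb)
  zero_mem' := by simp
  neg_mem' {a} ha := by
    rw [Set.mem_ofPred_eq] at *
    rwa [norm_neg]

variable {K}

theorem mem_Oc {x : K} : x ∈ Oc K ↔ ‖x‖ ≤ 1 := Iff.rfl

theorem isUnit_Oc {x : Oc K} (hx : ‖(x : K)‖ = 1) : IsUnit x := by
  have hx0 : (x : K) ≠ 0 := by
    intro h
    rw [h, norm_zero] at hx
    exact zero_ne_one hx
  refine IsUnit.of_mul_eq_one ⟨(x : K)⁻¹, ?_⟩ ?_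
  · rw [mem_Oc, norm_inv, hx, inv_one]
  · apply Subtype.ext
    change (x : K) * (x : K)⁻¹ = 1
    exact mul_inv_cancel₀ hx0

theorem even_iff_norm_lt [CharZero K] (h2 : ‖(2 : K)‖ < 1) (m : ℤ) :
    Even m ↔ ‖(m : K)‖ < 1 := by
  constructor
  · rintro ⟨k, rfl⟩
    have : ((k + k : ℤ) : K) = 2 * (k : K) := by push_cast; ring
    rw [this, norm_mul]
    calc ‖(2 : K)‖ * ‖(k : K)‖ ≤ ‖(2 : K)‖ * 1 :=
          mul_le_mul_of_nonneg_left (IsUltrametricDist.norm_intCast_le_one K k) (norm_nonneg _)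
      _ < 1 := by rw [mul_one]; exact h2
  · intro h
    by_contra hcon
    rw [Int.not_even_iff_odd] at hcon
    obtain ⟨k, rfl⟩ := hcon
    have h3 : (1 : K) = ((2 * k + 1 : ℤ) : K) - 2 * (k : K) := by push_cast; ring
    have h4 : ‖(2 : K) * (k : K)‖ < 1 := by
      rw [norm_mul]
      calc ‖(2 : K)‖ * ‖(k : K)‖ ≤ ‖(2 : K)‖ * 1 :=
            mul_le_mul_of_nonneg_left (IsUltrametricDist.norm_intCast_le_one K k) (norm_nonneg _)
        _ < 1 := by rw [mul_one]; exact h2
    have h5 : ‖(1 : K)‖ < 1 := by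
      rw [h3]
      rw [sub_eq_add_neg]
      refine (IsUltrametricDist.norm_add_le_max _ _).trans_lt (max_lt h ?_)
      rwa [norm_neg]
    rw [norm_one] at h5
    exact lt_irrefl _ h5

end Integers

theorem linInd_rows {R P K σ ι : Type*} [CommRing R] [AddCommGroup P] [Module R P] [Field K]
    [Fintype ι] (F : σ → (R →+* K)) (hF : Function.Injective F) (ℓ : σ → (P →+ K))
    (hℓ0 : ∀ f, ∃ p, ℓ f p ≠ 0) (hℓ : ∀ f (x : R) (p : P), ℓ f (x • p) = F f x * ℓ f p)
    (b : Module.Basis ι ℤ P) :
    LinearIndependent K (fun f => (fun k => ℓ f (b k) : ι → K)) := by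
  rw [linearIndependent_iff']
  intro t a ha f hf
  have h1 : ∀ p : P, ∑ g ∈ t, a g * ℓ g p = 0 := by
    intro p
    have h2 : ∀ g, ℓ g p = ∑ k, (b.repr p k : K) * ℓ g (b k) := by
      intro g
      conv_lhs => rw [← b.sum_repr p]
      rw [map_sum]
      refine Finset.sum_congr rfl fun k _ => ?_
      rw [map_zsmul, zsmul_eq_mul]
    simp only [h2, Finset.mul_sum]
    rw [Finset.sum_comm]
    refine Finset.sum_eq_zero fun k _ => ?_
    have h3 := congrFun ha k
    rw [Finset.sum_apply] at h3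
    simp only [Pi.smul_apply, smul_eq_mul, Pi.zero_apply] at h3
    calc ∑ g ∈ t, a g * ((b.repr p k : K) * ℓ g (b k)) =
        (b.repr p k : K) * ∑ g ∈ t, a g * ℓ g (b k) := by
          rw [Finset.mul_sum]
          exact Finset.sum_congr rfl fun g _ => by ring
      _ = 0 := by rw [h3, mul_zero]
  -- Dedekind
  have hD : LinearIndependent K (fun g : σ => ((F g : R →* K) : R → K)) := by
    have := linearIndependent_monoidHom R K
    exact this.comp (fun g : σ => (F g : R →* K)) (fun a b hab => hF (by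
      ext x
      exact DFunLike.congr_fun hab x))
  obtain ⟨p, hp⟩ := hℓ0 f
  have h4 : ∑ g ∈ t, (a g * ℓ g p) • ((F g : R →* K) : R → K) = 0 := by
    funext x
    rw [Finset.sum_apply]
    have := h1 (x • p)
    simp only [hℓ] at this
    rw [Pi.zero_apply, ← this]
    refine Finset.sum_congr rfl fun g _ => ?_
    simp only [Pi.smul_apply, smul_eq_mul, MonoidHom.coe_coe]
    ring
  have h5 := linearIndependent_iff'.mp hD t _ h4 f hf
  exact (mul_eq_zero.mp h5).resolve_right hp

/-- the determinant `W_f` vanishes -/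
theorem det_W_eq_zero {R P K σ ι : Type*} [CommRing R] [AddCommGroup P] [Module R P] [Field K]
    [Fintype ι] [Fintype σ] [DecidableEq σ] (F : σ → (R →+* K)) (ℓ : σ → (P →+ K))
    (hℓ : ∀ f (x : R) (p : P), ℓ f (x • p) = F f x * ℓ f p) (b : ι → P)
    (τ : σ → ι) (hτ : ((Matrix.of fun f k => ℓ f (b k)).submatrix id τ).det ≠ 0)
    (c : ι → σ → K) (hc : ∀ f k, ℓ f (b k) = ∑ g, c k g * ℓ f (b (τ g)))
    (m : ℤ) (x : σ → ι → R) (hx : ∀ j, m • b (τ j) = ∑ k, x j k • b k) (f : σ) :
    (Matrix.of fun j g => (if j = g then (m : K) else 0) - ∑ k, c k g * F f (x j k)).det = 0 := by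
  rw [← Matrix.exists_mulVec_eq_zero_iff]
  refine ⟨fun g => ℓ f (b (τ g)), ?_, ?_⟩
  · intro h0
    apply hτ
    exact Matrix.det_eq_zero_of_row_eq_zero f (fun g => congrFun h0 g)
  · funext j
    rw [Matrix.mulVec, dotProduct]
    simp only [Matrix.of_apply, sub_mul, Finset.sum_sub_distrib, ite_mul, zero_mul,
      Finset.sum_ite_eq, Finset.mem_univ, if_true, Pi.zero_apply]
    rw [sub_eq_zero]
    have h1 : (m : K) * ℓ f (b (τ j)) = ∑ k, F f (x j k) * ℓ f (b k) := by
      rw [← zsmul_eq_mul, ← map_zsmul, hx, map_sum]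
      exact Finset.sum_congr rfl fun k _ => hℓ f _ _
    rw [h1]
    simp only [Finset.sum_mul]
    rw [Finset.sum_comm]
    refine Finset.sum_congr rfl fun k _ => ?_
    rw [hc f k, Finset.mul_sum]
    exact Finset.sum_congr rfl fun g _ => by ring

/-- finiteness of quotients of `R` acting on a lattice -/
theorem finite_quotient {R P : Type*} [CommRing R] [AddCommGroup P] [Module R P]
    [Module.Finite ℤ P] [Module.Free ℤ P] (I : Ideal R)
    (hI : ∀ x : R, (∀ p : P, x • p = 0) → x ∈ I) : Module.Finite ℤ (R ⧸ I) := by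
  let φ₀ : R →+ Module.End ℤ P :=
    { toFun := fun x => (DistribSMul.toAddMonoidHom P x).toIntLinearMap
      map_zero' := by
        ext p
        exact zero_smul R p
      map_add' := fun a b => by
        ext p
        exact add_smul a b p }
  let φ : R →ₗ[ℤ] Module.End ℤ P := φ₀.toIntLinearMap
  have hφ : ∀ x p, φ x p = x • p := fun x p => rfl
  have hfin : Module.Finite ℤ (LinearMap.range φ) := inferInstance
  have hker : LinearMap.ker φ ≤ (I.restrictScalars ℤ : Submodule ℤ R) := by
    intro x hx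
    refine hI x fun p => ?_
    rw [← hφ, LinearMap.mem_ker.mp hx]
    rfl
  have h1 : Module.Finite ℤ (R ⧸ LinearMap.ker φ) :=
    Module.Finite.equiv φ.quotKerEquivRange.symm
  let q : (R ⧸ LinearMap.ker φ) →ₗ[ℤ] (R ⧸ (I.restrictScalars ℤ : Submodule ℤ R)) :=
    Submodule.factor hker
  have hq : Function.Surjective q := Submodule.factor_surjective hker
  have h2 : Module.Finite ℤ (R ⧸ (I.restrictScalars ℤ : Submodule ℤ R)) :=
    Module.Finite.of_surjective q hq
  exact Module.Finite.equiv (Submodule.Quotient.restrictScalarsEquiv ℤ I)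

end Fermat.Agent.P2.Six
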