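import Fermat.Agent.P2.Six.AlgC

/-!
# P2, block 6c: the determinant trick
-/

set_option autoImplicit false

open Matrix TensorProduct

noncomputable section

namespace Fermat.Agent.P2.Six

section

variable (B K : Type*) [CommRing B] [NormedField K] [IsUltrametricDist K]

/-- `𝒪 ⊗ B → K ⊗ B` -/
def toK : Oc K ⊗[ℤ] B →ₐ[ℤ] K ⊗[ℤ] B :=
  Algebra.TensorProduct.map ((Oc K).subtype.toIntAlgHom) (AlgHom.id ℤ B)

theorem toK_injective [Module.Flat ℤ B] : Function.Injective (toK B K) := by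
  have h1 := Module.Flat.rTensor_preserves_injective_linearMap (M := B)
    ((Oc K).subtype.toIntAlgHom.toLinearMap) (Subtype.val_injective)
  exact h1

variable {B K}

/-- evaluation at a character on `𝒪 ⊗ B` -/
def evO (g : B →+* K) : Oc K ⊗[ℤ] B →+* K := (extK g).toRingHom.comp (toK B K).toRingHom

theorem evO_tmul (g : B →+* K) (a : Oc K) (b : B) : evO g (a ⊗ₜ[ℤ] b) = (a : K) * g b := rfl

theorem eq_zero_of_evO [IsReduced B] [Module.Finite ℤ B] [Module.Flat ℤ B] [IsAlgClosed K]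
    [CharZero K] (z : Oc K ⊗[ℤ] B) (hz : ∀ g : B →+* K, evO g z = 0) : z = 0 := by
  apply toK_injective B K
  rw [map_zero]
  exact eq_zero_of_extK _ hz

end

theorem card_bound {R P K : Type*} [CommRing R] [AddCommGroup P] [Module R P]
    [Module.Finite ℤ P] [Module.Free ℤ P] [NormedField K] [IsUltrametricDist K]
    [IsAlgClosed K] [CharZero K] (h2 : ‖(2 : K)‖ < 1) (I : Ideal R)
    (hI : ∀ x : R, (∀ p : P, x • p = 0) → x ∈ I) [IsReduced (R ⧸ I)]
    (htf : ∀ (k : ℤ) (x : R), k ≠ 0 → k • x ∈ I → x ∈ I) (lam : R →+* ℤ) (n i : ℕ)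
    (hn : ∀ x ∈ I, (2 : ℤ) ^ n ∣ lam x)
    (hd : ∀ p : P, (2 : ℤ) ^ i • p ∈
      (Ideal.comap lam (Ideal.span {(2 : ℤ) ^ n})) • (⊤ : Submodule R P)) :
    n ≤ i * Nat.card {f : R ⧸ I →+* K //
      ∀ x : R, ‖f (Ideal.Quotient.mk I x)‖ < 1 ↔ Even (lam x)} := by
  classical
  have hBfin : Module.Finite ℤ (R ⧸ I) := finite_quotient I hI
  have hBtf : Module.IsTorsionFree ℤ (R ⧸ I) := by
    constructor
    intro k hk x y hxy
    obtain ⟨x, rfl⟩ := Ideal.Quotient.mk_surjective x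
    obtain ⟨y, rfl⟩ := Ideal.Quotient.mk_surjective y
    have h1 : k • (x - y) ∈ I := by
      rw [← Ideal.Quotient.eq_zero_iff_mem, smul_sub, map_sub, sub_eq_zero]
      simpa using hxy
    exact Ideal.Quotient.eq.mpr (htf k (x - y) hk.ne_zero h1)
  have hBfree : Module.Free ℤ (R ⧸ I) := Module.free_of_finite_type_torsion_free'
  have hhom : Finite (R ⧸ I →+* K) := finite_hom
  set S := {f : R ⧸ I →+* K // ∀ x : R, ‖f (Ideal.Quotient.mk I x)‖ < 1 ↔ Even (lam x)} with hS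
  have : Fintype S := Fintype.ofFinite S
  let F : S → (R →+* K) := fun f => f.1.comp (Ideal.Quotient.mk I)
  have hF : Function.Injective F := by
    intro f g hfg
    apply Subtype.ext
    exact Ideal.Quotient.ringHom_ext hfg
  have hfinR : Module.Finite R P := Module.Finite.of_restrictScalars_finite ℤ R P
  have hex : ∀ f : S, ∃ ℓ : P →+ K, (∃ p, ℓ p ≠ 0) ∧
      ∀ (x : R) (p : P), ℓ (x • p) = F f x * ℓ p := fun f =>
    exists_eigenfunctional (F f) (fun x hx => by
      change f.1 (Ideal.Quotient.mk I x) = 0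
      rw [Ideal.Quotient.eq_zero_iff_mem.mpr (hI x hx), map_zero])
  choose ℓ hℓ0 hℓ using hex
  let b := Module.Free.chooseBasis ℤ P
  have hli := linInd_rows F hF ℓ hℓ0 hℓ b
  obtain ⟨τ, hτ, c, hc, hL⟩ := exists_minor (Matrix.of fun f k => ℓ f (b k)) hli
  -- expressing `2 ^ i • b (τ j)`
  have hspan : Submodule.span R (Set.range b) = ⊤ := by
    rw [eq_top_iff]
    intro p _
    rw [← b.sum_repr p]
    refine Submodule.sum_mem _ fun k _ => ?_
    have h1 : b k ∈ Submodule.span R (Set.range b) := Submodule.subset_span ⟨k, rfl⟩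
    have h3 : (b.repr p k) • b k = ((b.repr p k : ℤ) : R) • b k := by
      rw [Int.cast_smul_eq_zsmul]
    rw [h3]
    exact Submodule.smul_mem _ _ h1
  have hx : ∀ j : S, ∃ x : Module.Free.ChooseBasisIndex ℤ P → R,
      (∀ k, (2 : ℤ) ^ n ∣ lam (x k)) ∧ (2 : ℤ) ^ i • b (τ j) = ∑ k, x k • b k := by
    intro j
    have h1 := hd (b (τ j))
    rw [← hspan, Submodule.mem_ideal_smul_span_iff_exists_sum] at h1
    obtain ⟨a, ha, hs⟩ := h1
    refine ⟨a, fun k => ?_, ?_⟩
    · have := ha k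
      rwa [Ideal.mem_comap, Ideal.mem_span_singleton] at this
    · rw [← hs]
      exact Finsupp.sum_fintype _ _ (fun k => zero_smul R _)
  choose x hx1 hx2 using hx
  -- vanishing at the systems in `S`
  have hW : ∀ f : S, (Matrix.of fun j g => (if j = g then (((2 : ℤ) ^ i : ℤ) : K) else 0) -
      ∑ k, c k g * F f (x j k)).det = 0 :=
    det_W_eq_zero F ℓ hℓ b τ hτ c (fun f k => hL f k) ((2 : ℤ) ^ i) x hx2
  -- the element `r`
  let c' : Module.Free.ChooseBasisIndex ℤ P → S → Oc K := fun k g => ⟨c k g, hc k g⟩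
  let M : Matrix S S (Oc K ⊗[ℤ] (R ⧸ I)) := Matrix.of fun j g =>
    (if j = g then (((2 : ℤ) ^ i : ℤ) : Oc K ⊗[ℤ] (R ⧸ I)) else 0) -
      ∑ k, (c' k g) ⊗ₜ[ℤ] (Ideal.Quotient.mk I (x j k))
  have hr : ∀ f : S, evO f.1 M.det = 0 := by
    intro f
    rw [RingHom.map_det, ← hW f]
    congr 1
    ext j g
    simp only [RingHom.mapMatrix_apply, Matrix.map_apply, M, Matrix.of_apply, map_sub, map_sum,
      evO_tmul, apply_ite (evO f.1), map_intCast, map_zero]
    rfl
  -- the other systems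
  have hint : ∀ (g : R ⧸ I →+* K) (y : R ⧸ I), ‖g y‖ ≤ 1 := by
    intro g y
    apply norm_le_one_of_isIntegral
    have h1 : IsIntegral ℤ y := Algebra.IsIntegral.isIntegral y
    exact h1.map g.toIntAlgHom
  have hy : ∀ g : R ⧸ I →+* K, ∃ y : R, (∀ h : ¬ ∀ x : R, ‖g (Ideal.Quotient.mk I x)‖ < 1 ↔
      Even (lam x), ‖(lam y : K) - g (Ideal.Quotient.mk I y)‖ = 1) := by
    intro g
    by_cases hg : ∀ x : R, ‖g (Ideal.Quotient.mk I x)‖ < 1 ↔ Even (lam x)
    · exact ⟨0, fun h => absurd hg h⟩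
    · have hg' := hg
      push Not at hg'
      obtain ⟨y, hy⟩ := hg'
      refine ⟨y, fun _ => ?_⟩
      rcases hy with ⟨h3, h4⟩ | ⟨h3, h4⟩
      · have h5 : ‖(lam y : K)‖ = 1 := by
          refine le_antisymm (IsUltrametricDist.norm_intCast_le_one K _) ?_
          rw [even_iff_norm_lt h2, not_lt] at h4
          exact h4
        rw [sub_eq_add_neg, IsUltrametricDist.norm_add_eq_max_of_norm_ne_norm, norm_neg, h5,
          max_eq_left h3.le]
        rw [norm_neg, h5]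
        exact h3.ne'
      · have h5 : ‖g (Ideal.Quotient.mk I y)‖ = 1 := le_antisymm (hint g _) h3
        rw [even_iff_norm_lt h2] at h4
        rw [sub_eq_add_neg, IsUltrametricDist.norm_add_eq_max_of_norm_ne_norm, norm_neg, h5,
          max_eq_right h4.le]
        rw [norm_neg, h5]
        exact h4.ne
  choose y hy using hy
  have : Fintype (R ⧸ I →+* K) := Fintype.ofFinite _
  let bad : Finset (R ⧸ I →+* K) := Finset.univ.filter fun g =>
    ¬ ∀ x : R, ‖g (Ideal.Quotient.mk I x)‖ < 1 ↔ Even (lam x)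
  let v : (R ⧸ I →+* K) → Oc K ⊗[ℤ] (R ⧸ I) := fun g =>
    (1 : Oc K) ⊗ₜ[ℤ] (Ideal.Quotient.mk I (y g)) -
      (⟨g (Ideal.Quotient.mk I (y g)), hint g _⟩ : Oc K) ⊗ₜ[ℤ] (1 : R ⧸ I)
  let u : Oc K ⊗[ℤ] (R ⧸ I) := ∏ g ∈ bad, v g
  have hu : ∀ g ∈ bad, evO g u = 0 := by
    intro g hg
    rw [map_prod]
    apply Finset.prod_eq_zero hg
    rw [map_sub, evO_tmul, evO_tmul, map_one, mul_one]
    change (1 : K) * _ - _ = 0
    rw [one_mul, sub_self]
  have hru : M.det * u = 0 := by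
    apply eq_zero_of_evO
    intro g
    rw [map_mul]
    by_cases hg : ∀ x : R, ‖g (Ideal.Quotient.mk I x)‖ < 1 ↔ Even (lam x)
    · rw [hr ⟨g, hg⟩, zero_mul]
    · rw [hu g (Finset.mem_filter.mpr ⟨Finset.mem_univ _, hg⟩), mul_zero]
  -- the specialization `lam`
  let J : Ideal (Oc K) := Ideal.span {(2 : Oc K) ^ n}
  have hJ2 : Ideal.Quotient.mk J (2 : Oc K) = 2 := map_ofNat (Ideal.Quotient.mk J) 2
  let lamJ : R ⧸ I →+* (Oc K ⧸ J) := Ideal.Quotient.lift I
    ((Int.castRingHom (Oc K ⧸ J)).comp lam) (by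
      intro z hz
      obtain ⟨k, hk⟩ := hn z hz
      rw [RingHom.comp_apply, hk, map_mul, map_pow]
      have h1 : ((Int.castRingHom (Oc K ⧸ J)) 2) ^ n =
          Ideal.Quotient.mk J ((2 : Oc K) ^ n) := by
        rw [map_pow, hJ2]
        simp
      rw [h1, Ideal.Quotient.eq_zero_iff_mem.mpr (Ideal.mem_span_singleton_self _), zero_mul])
  let Λ : Oc K ⊗[ℤ] (R ⧸ I) →+* (Oc K ⧸ J) := (Algebra.TensorProduct.lift
    (Ideal.Quotient.mk J).toIntAlgHom lamJ.toIntAlgHom (fun _ _ => Commute.all _ _)).toRingHom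
  have hΛ : ∀ (a : Oc K) (z : R), Λ (a ⊗ₜ[ℤ] (Ideal.Quotient.mk I z)) =
      Ideal.Quotient.mk J a * ((lam z : ℤ) : Oc K ⧸ J) := fun a z => rfl
  have hΛr : Λ M.det = Ideal.Quotient.mk J ((2 : Oc K) ^ (i * Fintype.card S)) := by
    rw [RingHom.map_det]
    have h1 : Λ.mapMatrix M = ((2 : Oc K ⧸ J) ^ i) • (1 : Matrix S S (Oc K ⧸ J)) := by
      ext j g
      simp only [RingHom.mapMatrix_apply, Matrix.map_apply, M, Matrix.of_apply, map_sub, map_sum,
        hΛ, apply_ite Λ, map_intCast, map_zero, Matrix.smul_apply, Matrix.one_apply,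
        smul_eq_mul, mul_ite, mul_one, mul_zero]
      have h3 : ∑ k, Ideal.Quotient.mk J (c' k g) * ((lam (x j k) : ℤ) : Oc K ⧸ J) = 0 := by
        refine Finset.sum_eq_zero fun k _ => ?_
        obtain ⟨m, hm⟩ := hx1 j k
        have h4 : ((lam (x j k) : ℤ) : Oc K ⧸ J) = 0 := by
          rw [hm]
          have h5 : (((2 : ℤ) ^ n * m : ℤ) : Oc K ⧸ J) =
              Ideal.Quotient.mk J ((2 : Oc K) ^ n) * (m : Oc K ⧸ J) := by
            rw [map_pow, hJ2]
            push_cast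
            rfl
          rw [h5, Ideal.Quotient.eq_zero_iff_mem.mpr (Ideal.mem_span_singleton_self _), zero_mul]
        rw [h4, mul_zero]
      rw [h3, sub_zero]
      push_cast
      rfl
    rw [h1, Matrix.det_smul, Matrix.det_one, mul_one, ← pow_mul, map_pow, hJ2]
  have hΛu : IsUnit (Λ u) := by
    rw [map_prod, IsUnit.prod_iff]
    intro g hg
    have h1 : Λ (v g) = Ideal.Quotient.mk J (((lam (y g) : ℤ) : Oc K) -
        ⟨g (Ideal.Quotient.mk I (y g)), hint g _⟩) := by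
      rw [map_sub, hΛ, map_one, one_mul, map_sub, map_intCast]
      congr 1
      have := hΛ ⟨g (Ideal.Quotient.mk I (y g)), hint g _⟩ 1
      rw [map_one, map_one] at this
      rw [this, Int.cast_one, mul_one]
    rw [h1]
    apply IsUnit.map
    apply isUnit_Oc
    have := hy g (Finset.mem_filter.mp hg).2
    rw [← this]
    congr 1
  have hfinal : Ideal.Quotient.mk J ((2 : Oc K) ^ (i * Fintype.card S)) = 0 := by
    have h1 := congrArg Λ hru
    rw [map_mul, map_zero, hΛr] at h1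
    exact (hΛu.mul_left_eq_zero).mp h1
  rw [Ideal.Quotient.eq_zero_iff_mem, Ideal.mem_span_singleton] at hfinal
  obtain ⟨z, hz⟩ := hfinal
  have hz' : (2 : K) ^ (i * Fintype.card S) = 2 ^ n * (z : K) := by
    have h1 := congrArg (Subtype.val) hz
    have h4 : ((2 : Oc K) : K) = 2 := rfl
    push_cast at h1
    rw [h4] at h1
    exact h1
  have h3 : ‖(2 : K)‖ ^ (i * Fintype.card S) ≤ ‖(2 : K)‖ ^ n := by
    rw [← norm_pow, hz', norm_mul, norm_pow]
    have := z.2
    rw [mem_Oc] at this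
    calc ‖(2 : K)‖ ^ n * ‖(z : K)‖ ≤ ‖(2 : K)‖ ^ n * 1 :=
          mul_le_mul_of_nonneg_left this (by positivity)
      _ = _ := mul_one _
  rw [Nat.card_eq_fintype_card]
  by_contra hcon
  push Not at hcon
  have h20 : 0 < ‖(2 : K)‖ := norm_pos_iff.mpr two_ne_zero
  have := pow_lt_pow_right_of_lt_one₀ h20 h2 hcon
  exact absurd h3 (not_le.mpr this)

end Fermat.Agent.P2.Six
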