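import Fermat.Agent.P2.Sys.Red
import Fermat.Agent.DR.AllInputs

/-!
# P2, block 6c: the dual of the period lattice and the `2^n`-torsion of `J₀(M)`
-/

set_option autoImplicit false

noncomputable section

open ModularCurve CongruenceSubgroup
open Fermat.Agent.GAL Fermat.Agent.GAL.HeckeHom Fermat.Agent.GAL.PeriodLattice

namespace Fermat.Agent.P2.Six

variable (M : ℕ) [NeZero M]

/-- the divisors of the level -/
def badS : Set ℕ := {q | q ∣ M}

omit [NeZero M] in
theorem mem_badS : ∀ q : ℕ, q.Prime → q ∣ M → q ∈ badS M := fun _ _ h2 => h2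

/-- the evaluation of the anemic algebra, as endomorphisms of the forms -/
def anemEnd : anem M →+* Module.End ℂ (CuspForm (Gamma0 M) 2) :=
  ((CuspForm.heckeAlgebra M 2 ∅).val.toRingHom.comp (CuspForm.heckeEvalForms M 2)).comp
    (anem M).val.toRingHom

theorem anemEnd_apply (x : anem M) : anemEnd M x = Sys.act M x := rfl

/-- the evaluation of the anemic algebra -/
def anemEval : anem M →+* CuspForm.heckeAlgebra M 2 (badS M) :=
  (anemEnd M).codRestrict (CuspForm.heckeAlgebra M 2 (badS M)) fun x =>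
    Sys.act_mem_heckeAlgebra (fun _ _ h => h) x.2

theorem coe_anemEval (x : anem M) : ((anemEval M x : CuspForm.heckeAlgebra M 2 (badS M)) :
    Module.End ℂ (CuspForm (Gamma0 M) 2)) = Sys.act M x := rfl

variable {M} in
omit [NeZero M] in
theorem gen_mem {ℓ : Nat.Primes} (hℓ : ¬ (ℓ : ℕ) ∣ M) : heckeGen ℓ ∈ anem M :=
  Algebra.subset_adjoin ⟨ℓ, hℓ, rfl⟩

variable {M} in
theorem anemEval_gen {ℓ : Nat.Primes} (hℓ : ¬ (ℓ : ℕ) ∣ M) :
    anemEval M ⟨heckeGen ℓ, gen_mem hℓ⟩ = CuspForm.heckeAlgebra.T ℓ.2 hℓ hℓ :=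
  Subtype.ext (by
    rw [coe_anemEval, Sys.act, CuspForm.heckeEvalForms_heckeGen_of_not_dvd hℓ]
    rfl)

/-! ## The lattice -/

/-- the dual of the period lattice -/
def HLat : Type := perLat M →ₗ[ℤ] ℤ

instance : AddCommGroup (HLat M) := inferInstanceAs (AddCommGroup (perLat M →ₗ[ℤ] ℤ))

instance : Module.Finite ℤ (HLat M) := inferInstanceAs (Module.Finite ℤ (perLat M →ₗ[ℤ] ℤ))

instance : Module.Free ℤ (HLat M) := inferInstanceAs (Module.Free ℤ (perLat M →ₗ[ℤ] ℤ))

/-- the functional -/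
def HLat.fn {M : ℕ} [NeZero M] (φ : HLat M) : perLat M →ₗ[ℤ] ℤ := φ

variable {M} in
theorem HLat.ext {φ ψ : HLat M} (h : ∀ p, φ.fn p = ψ.fn p) : φ = ψ := LinearMap.ext h

/-- the action on the lattice -/
def actH : anem M →+* Module.End ℤ (HLat M) where
  toFun x :=
    { toFun := fun φ => (φ.fn ∘ₗ actLat (mem_badS M) (anemEval M x) : perLat M →ₗ[ℤ] ℤ)
      map_add' := fun φ ψ => rfl
      map_smul' := fun c φ => rfl }
  map_zero' := by
    refine LinearMap.ext fun φ => HLat.ext fun p => ?_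
    show φ.fn (actLat (mem_badS M) (anemEval M 0) p) = 0
    rw [map_zero, map_zero, LinearMap.zero_apply, map_zero]
  map_one' := by
    refine LinearMap.ext fun φ => HLat.ext fun p => ?_
    show φ.fn (actLat (mem_badS M) (anemEval M 1) p) = φ.fn p
    rw [map_one, map_one, Module.End.one_apply]
  map_add' x y := by
    refine LinearMap.ext fun φ => HLat.ext fun p => ?_
    show φ.fn (actLat (mem_badS M) (anemEval M (x + y)) p) =
      φ.fn (actLat (mem_badS M) (anemEval M x) p) + φ.fn (actLat (mem_badS M) (anemEval M y) p)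
    rw [map_add, map_add, LinearMap.add_apply, map_add]
  map_mul' x y := by
    refine LinearMap.ext fun φ => HLat.ext fun p => ?_
    show φ.fn (actLat (mem_badS M) (anemEval M (x * y)) p) =
      φ.fn (actLat (mem_badS M) (anemEval M y) (actLat (mem_badS M) (anemEval M x) p))
    rw [mul_comm, map_mul, map_mul, Module.End.mul_apply]

instance : Module (anem M) (HLat M) := Module.compHom (HLat M) (actH M)

variable {M}

theorem smul_fn (x : anem M) (φ : HLat M) (p : perLat M) :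
    (x • φ).fn p = φ.fn (actLat (mem_badS M) (anemEval M x) p) := rfl

theorem zero_fn (p : perLat M) : (0 : HLat M).fn p = 0 := rfl

theorem add_fn (φ ψ : HLat M) (p : perLat M) : (φ + ψ).fn p = φ.fn p + ψ.fn p := rfl

theorem zsmul_fn (c : ℤ) (φ : HLat M) (p : perLat M) : (c • φ).fn p = c * φ.fn p := rfl

/-- an element killing the lattice kills the forms. -/
theorem anemEval_eq_zero_of_smul {x : anem M} (hx : ∀ φ : HLat M, x • φ = 0) :
    anemEval M x = 0 := by
  apply actLat_injective (mem_badS M)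
  rw [map_zero]
  refine LinearMap.ext fun p => ?_
  rw [LinearMap.zero_apply, ← Module.forall_dual_apply_eq_zero_iff ℤ]
  intro φ
  have h := congrArg (fun ψ : HLat M => ψ.fn p) (hx φ)
  exact h

/-! ## The map to the Jacobian -/

/-- the class of `γ` in the period lattice -/
def pt (γ : Additive (Gamma0 M)) : perLat M := (perHom M).rangeRestrict γ

theorem pt_surjective : Function.Surjective (pt (M := M)) := (perHom M).rangeRestrict_surjective

/-- reduction of a functional -/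
def redFn (m : ℕ) (φ : HLat M) : perLat M →+ ZMod m :=
  (Int.castAddHom (ZMod m)).comp φ.fn.toAddMonoidHom

theorem redFn_apply (m : ℕ) (φ : HLat M) (p : perLat M) : redFn m φ p = ((φ.fn p : ℤ) : ZMod m) :=
  rfl

/-- the parabolic homomorphism of a functional -/
def toPar (m : ℕ) : HLat M →+ parEll M (ZMod m) where
  toFun φ := ⟨(redFn m φ).comp (perHom M).rangeRestrict, comp_perHom_mem _⟩
  map_zero' := by
    apply Subtype.ext
    refine AddMonoidHom.ext fun γ => ?_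
    change (((0 : HLat M).fn (pt γ) : ℤ) : ZMod m) = 0
    rw [zero_fn, Int.cast_zero]
  map_add' φ ψ := by
    apply Subtype.ext
    refine AddMonoidHom.ext fun γ => ?_
    show (((φ + ψ).fn (pt γ) : ℤ) : ZMod m) =
      ((φ.fn (pt γ) : ℤ) : ZMod m) +
      ((ψ.fn (pt γ) : ℤ) : ZMod m)
    rw [add_fn, Int.cast_add]

theorem toPar_eq_zero {m : ℕ} {φ : HLat M} (h : toPar m φ = 0) : ∃ ψ : HLat M, φ = (m : ℤ) • ψ := by
  have h1 : ∀ p : perLat M, (m : ℤ) ∣ φ.fn p := by
    intro p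
    obtain ⟨γ, rfl⟩ := pt_surjective p
    have h2 := DFunLike.congr_fun (congrArg Subtype.val h) γ
    exact (ZMod.intCast_zmod_eq_zero_iff_dvd _ _).mp h2
  have hfree : Module.Free ℤ (perLat M) := inferInstance
  let B := Module.Free.chooseBasis ℤ (perLat M)
  choose g hg using h1
  refine ⟨(B.constr ℤ fun i => g (B i) : perLat M →ₗ[ℤ] ℤ), ?_⟩
  have h3 : (φ.fn : perLat M →ₗ[ℤ] ℤ) = (m : ℤ) • (B.constr ℤ fun i => g (B i)) := by
    refine B.ext fun i => ?_
    rw [LinearMap.smul_apply, Module.Basis.constr_basis, hg, smul_eq_mul]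
  exact h3

theorem toPar_zsmul (m : ℕ) (φ : HLat M) : toPar m ((m : ℤ) • φ) = 0 := by
  apply Subtype.ext
  refine AddMonoidHom.ext fun γ => ?_
  show ((((m : ℤ) • φ).fn (pt γ) : ℤ) : ZMod m) = 0
  rw [zsmul_fn, Int.cast_mul, Int.cast_natCast, ZMod.natCast_self, zero_mul]

theorem toPar_smul_gen (m : ℕ) {ℓ : Nat.Primes} (hℓ : ¬ (ℓ : ℕ) ∣ M) (φ : HLat M) :
    (toPar m ((⟨heckeGen ℓ, gen_mem hℓ⟩ : anem M) • φ) : Additive (Gamma0 M) →+ ZMod m) =
      heckeHom ℓ.2 hℓ (toPar m φ) := by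
  have h := heckeHom_comp_rangeRestrict ℓ.2 hℓ (mem_badS M) hℓ (redFn m φ)
  refine Eq.trans ?_ h.symm
  refine AddMonoidHom.ext fun γ => ?_
  change ((((⟨heckeGen ℓ, gen_mem hℓ⟩ : anem M) • φ).fn (pt γ) : ℤ) :
    ZMod m) = ((φ.fn (actLat (mem_badS M) (CuspForm.heckeAlgebra.T ℓ.2 hℓ hℓ)
      (pt γ)) : ℤ) : ZMod m)
  rw [smul_fn, anemEval_gen hℓ]

/-- **From the lattice to the Jacobian.** -/
theorem exists_toJ (M : ℕ) [NeZero M] {m : ℕ} (hm : 0 < m) : ∃ Φ : HLat M →+ JZero M,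
    (∀ φ, Φ φ = 0 ↔ ∃ ψ : HLat M, φ = (m : ℤ) • ψ) ∧
    ∀ (ℓ : Nat.Primes) (hℓ : ¬ (ℓ : ℕ) ∣ M) (φ : HLat M),
      Φ ((⟨heckeGen ℓ, gen_mem hℓ⟩ : anem M) • φ) = heckeOperatorBar M ℓ (Φ φ) := by
  have hcomm := DR.allInputs.comm M
  have h := (DR.allInputs.jan M).homSupport hcomm
  obtain ⟨Φ, hinj, hΦ⟩ := h m hm
  refine ⟨Φ.comp (toPar m), fun φ => ⟨fun hφ => ?_, ?_⟩, fun ℓ hℓ φ => ?_⟩
  · refine toPar_eq_zero (hinj ?_)
    rw [map_zero]
    exact hφ
  · rintro ⟨ψ, rfl⟩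
    rw [AddMonoidHom.comp_apply, toPar_zsmul, map_zero]
  · have h1 := hΦ ℓ ℓ.2 hℓ (toPar m φ) (toPar m ((⟨heckeGen ℓ, gen_mem hℓ⟩ : anem M) • φ))
      (toPar_smul_gen m hℓ φ)
    have h2 := heckeModuleBar_heckeGen_smul hcomm ℓ (Φ (toPar m φ))
    exact h1.trans h2

end Fermat.Agent.P2.Six
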